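import Fermat.Agent.S28.DG.Analytic.Main.Eps

/-!
# S28, Part A (WP18), step 4: assembling the `CuspData` over a good coefficient ring
-/

set_option autoImplicit false
open ModularCurve UpperHalfPlane Complex
open scoped ModularForm MatrixGroups Real Manifold
noncomputable section

namespace Fermat.Agent.S28.DG

section assemble

variable (O : Type) [CommRing O] [Algebra O ℂ] (N : ℕ)

theorem jM_mem_Bsub {M : GL (Fin 2) ℝ} (hM : M ∈ intMat N) : jM M ∈ Bsub O N :=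
  Algebra.subset_adjoin ⟨M, hM, Or.inl rfl⟩

theorem uM_mem_Bsub {M : GL (Fin 2) ℝ} (hM : M ∈ intMat N) : uM M ∈ Bsub O N :=
  Algebra.subset_adjoin ⟨M, hM, Or.inr (Or.inl rfl)⟩

theorem inv_uM_mem_Bsub {M : GL (Fin 2) ℝ} (hM : M ∈ intMat N) : (uM M)⁻¹ ∈ Bsub O N :=
  Algebra.subset_adjoin ⟨M, hM, Or.inr (Or.inr rfl)⟩

theorem diag_mem_intMat {d : ℕ} (hd : 0 < d) (hdN : d ∣ N) : utGL d 1 0 hd one_pos ∈ intMat N :=
  utGL_mem_intMat 0 hd one_pos (by rwa [mul_one])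

/-- `j(dτ)`. -/
def Jd (d : ℕ) : Bsub O N :=
  if h : 0 < d ∧ d ∣ N then ⟨jM (utGL d 1 0 h.1 one_pos), jM_mem_Bsub O N (diag_mem_intMat N h.1 h.2)⟩
  else 0

/-- `Δ(dτ)/Δ(τ)` up to a constant. -/
def Ud (d : ℕ) : (Bsub O N)ˣ :=
  if h : 0 < d ∧ d ∣ N then
    ⟨⟨uM (utGL d 1 0 h.1 one_pos), uM_mem_Bsub O N (diag_mem_intMat N h.1 h.2)⟩,
      ⟨(uM (utGL d 1 0 h.1 one_pos))⁻¹, inv_uM_mem_Bsub O N (diag_mem_intMat N h.1 h.2)⟩,
      Subtype.ext (funext fun τ => mul_inv_cancel₀ (uM_ne_zero _ τ)),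
      Subtype.ext (funext fun τ => inv_mul_cancel₀ (uM_ne_zero _ τ))⟩
  else 1

variable {N}

theorem coe_Jd {d : ℕ} (hd : 0 < d) (hdN : d ∣ N) :
    (Jd O N d : ℍ → ℂ) = jM (utGL d 1 0 hd one_pos) := by
  rw [Jd, dif_pos ⟨hd, hdN⟩]

theorem coe_Ud {d : ℕ} (hd : 0 < d) (hdN : d ∣ N) :
    (((Ud O N d : (Bsub O N)ˣ) : Bsub O N) : ℍ → ℂ) = uM (utGL d 1 0 hd one_pos) := by
  rw [Ud, dif_pos ⟨hd, hdN⟩]

theorem coe_Jd_one : (Jd O N 1 : ℍ → ℂ) = jFun := by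
  rw [coe_Jd O one_pos (one_dvd N), jM_utGL]
  funext τ
  simp [utMap_one_one_zero]

variable {O}
variable [NeZero N]

theorem hasExpO_Jd {d : ℕ} [NeZero d] (hdN : d ∣ N) :
    HasExpO O N (Jd O N d) (qExpand O N (qExpand O d (jqModC O))) := by
  have hd : 0 < d := Nat.pos_of_ne_zero (NeZero.ne d)
  have : NeZero (N / 1 * d) := neZero_div_mul hd (one_dvd N)
  have h1 := hasExpO_jM_utGL (O := O) (N := N) 0 hd one_pos (one_dvd N) 1 (by simp)
  rw [coe_Jd O hd hdN, qExpand_qExpand]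
  rw [jSer, twist_one, qExpand_congr (show N / 1 * d = N * d by simp)] at h1
  exact h1

omit [NeZero N] in
theorem preAct_Jd_one (γ : SL(2, ℤ)) : preAct O γ (Jd O N 1) = Jd O N 1 := by
  rw [coe_Jd_one]
  funext τ
  rw [preAct_apply, jFun_smul]

theorem gcd_gcd_of_dvd (n : ℕ) {d N : ℕ} (hdN : d ∣ N) : Nat.gcd (Nat.gcd n N) d = Nat.gcd n d := by
  rw [Nat.gcd_assoc, Nat.gcd_eq_right hdN]

variable [FaithfulSMul O ℂ]

theorem exists_aeval_eq (h : GoodCoeff N O) (b : Bsub O N)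
    (hb : ∀ γ : SL(2, ℤ), preAct O γ b = b) :
    ∃ p : Polynomial O, Polynomial.aeval (Jd O N 1) p = b := by
  obtain ⟨p, hp⟩ := exists_polynomial_of_invariant O N b (epsB h b) (epsB_spec h b) (by
    intro γ τ
    have := congrFun (hb γ⁻¹) τ
    rwa [preAct_apply, inv_inv] at this)
  refine ⟨p, Subtype.ext (funext fun τ => ?_)⟩
  rw [hp τ]
  have h1 : ((Polynomial.aeval (Jd O N 1) p : Bsub O N) : ℍ → ℂ) =
      Polynomial.aeval (Jd O N 1 : ℍ → ℂ) p :=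
    Polynomial.aeval_algHom_apply (Bsub O N).val (Jd O N 1) p |>.symm
  have h2 : (Polynomial.aeval (Jd O N 1 : ℍ → ℂ) p) τ =
      Polynomial.aeval ((Jd O N 1 : ℍ → ℂ) τ) p :=
    Polynomial.aeval_algHom_apply (Pi.evalAlgHom O (fun _ : ℍ => ℂ) τ) (Jd O N 1 : ℍ → ℂ) p |>.symm
  rw [h1, h2, coe_Jd_one]

variable [IsDomain O]

theorem exists_c_aux (h : GoodCoeff N O) (γ : SL(2, ℤ)) (act : Bsub O N → Bsub O N)
    (hact : ∀ b, (act b : ℍ → ℂ) = preAct O γ b) :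
    ∃ c : ℕ, c ∣ N ∧
    (∀ d : ℕ, d ∣ N →
      (epsB h (act (Ud O N d : Bsub O N))).order =
        ((N / d : ℕ) : ℤ) * ((Nat.gcd c d : ℕ) : ℤ) ^ 2 - (N : ℤ) ∧
      IsUnit (epsB h (act (Ud O N d : Bsub O N))).leadingCoeff) ∧
    ((epsB h (act (Jd O N N))).order = - ((c : ℤ) ^ 2) ∧
      IsUnit (epsB h (act (Jd O N N))).leadingCoeff) ∧
    (c = N → ∀ d : ℕ, d ∣ N → act (Jd O N d) = Jd O N d) := by
  have hN : 0 < N := Nat.pos_of_ne_zero (NeZero.ne N)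
  refine ⟨Nat.gcd ((γ⁻¹ : SL(2, ℤ)) 1 0).natAbs N, Nat.gcd_dvd_right _ _, ?_, ?_, ?_⟩
  · intro d hdN
    have hd : 0 < d := Nat.pos_of_dvd_of_pos hdN hN
    obtain ⟨e, _, ξ, c, he, -, h2, -⟩ := h.key hd hdN γ⁻¹
    have h3 : epsB h (act (Ud O N d : Bsub O N)) = uSer O N e ξ c := by
      apply epsB_eq
      rw [hact, coe_Ud O hd hdN, preAct_uM]
      exact h2
    rw [h3, gcd_gcd_of_dvd _ hdN]
    have h4 := ordUnit_uSer N e ξ c.isUnit
    refine ⟨?_, h4.2⟩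
    rw [h4.1, he]
    push_cast
    ring
  · obtain ⟨e, _, ξ, c, he, h1, -, -⟩ := h.key hN dvd_rfl γ⁻¹
    have h3 : epsB h (act (Jd O N N)) = jSer O e ξ := by
      apply epsB_eq
      rw [hact, coe_Jd O hN dvd_rfl, preAct_jM]
      exact h1
    rw [h3]
    have h4 := ordUnit_jSer e ξ
    refine ⟨?_, h4.2⟩
    rw [h4.1, he, Nat.div_self hN]
    push_cast
    ring
  · intro hc d hdN
    have hd : 0 < d := Nat.pos_of_dvd_of_pos hdN hN
    obtain ⟨e, _, ξ, c, -, -, -, h4⟩ := h.key hd hdN γ⁻¹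
    apply Subtype.ext
    rw [hact, coe_Jd O hd hdN, preAct_jM]
    apply h4
    rw [← gcd_gcd_of_dvd _ hdN, hc, Nat.gcd_eq_right hdN]

/-- **The cusp data over a good coefficient ring.** -/
def cuspDataOfGood (h : GoodCoeff N O) : CuspData N O where
  B := Bsub O N
  G := Gq N
  instAct := gqAct O N
  smul_algebraMap g r := by
    induction g using QuotientGroup.induction_on with
    | H γ => exact Subtype.ext ((preAct O γ).commutes r)
  ε := epsB h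
  ε_injective := epsB_injective h
  J := Jd O N
  U := Ud O N
  ε_J d _ hdN := epsB_eq h _ (hasExpO_Jd hdN)
  smul_J_one g := by
    induction g using QuotientGroup.induction_on with
    | H γ => exact Subtype.ext (preAct_Jd_one γ)
  invariant b hb := exists_aeval_eq h b fun γ =>
    congrArg Subtype.val (hb (QuotientGroup.mk γ))
  exists_c g := by
    induction g using QuotientGroup.induction_on with
    | H γ => exact exists_c_aux h γ _ (fun b => gqAct_mk_coe O N γ b)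

end assemble

end Fermat.Agent.S28.DG
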