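import Fermat.Agent.S28.DG.Analytic.Main.Ring

/-!
# S28, Part A (WP18), step 3: the expansion map `ε`
-/

set_option autoImplicit false
open ModularCurve UpperHalfPlane Complex
open scoped ModularForm MatrixGroups Real Manifold
noncomputable section

namespace Fermat.Agent.S28.DG

theorem algebraMap_laurent_eq_C_eps {O : Type} [CommRing O] (r : O) :
    algebraMap O (LaurentSeries O) r = HahnSeries.C r := by
  rw [HahnSeries.algebraMap_apply']
  simp

section eps

variable (O : Type) [CommRing O] [Algebra O ℂ] (N : ℕ) [NeZero N]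

/-- functions having a `q_N`-expansion with coefficients in `O`. -/
def expSub : Subalgebra O (ℍ → ℂ) where
  carrier := {f | ∃ a : LaurentSeries O, HasExpO O N f a}
  mul_mem' := by
    rintro f g ⟨a, ha⟩ ⟨b, hb⟩
    refine ⟨a * b, ?_⟩
    unfold HasExpO at *
    rw [map_mul]
    exact ha.mul hb
  add_mem' := by
    rintro f g ⟨a, ha⟩ ⟨b, hb⟩
    refine ⟨a + b, ?_⟩
    unfold HasExpO at *
    rw [map_add]
    exact ha.add hb
  algebraMap_mem' r := by
    refine ⟨HahnSeries.C r, ?_⟩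
    unfold HasExpO
    rw [coeffMap_C']
    exact hasExp_const _

variable {O N}

theorem HasExpO.unique [FaithfulSMul O ℂ] {f : ℍ → ℂ} {a b : LaurentSeries O}
    (ha : HasExpO O N f a) (hb : HasExpO O N f b) : a = b := by
  have h := HasExp.unique ha hb
  ext n
  apply FaithfulSMul.algebraMap_injective O ℂ
  have := congrArg (fun x => HahnSeries.coeff x n) h
  simpa using this

theorem HasExpO.fun_unique {f g : ℍ → ℂ} {a : LaurentSeries O}
    (hf : HasExpO O N f a) (hg : HasExpO O N g a) : f = g :=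
  HasExp.fun_unique hf hg

variable (O N)

/-- the chosen expansion. -/
def epsFun (f : expSub O N) : LaurentSeries O := Classical.choose f.2

theorem epsFun_spec (f : expSub O N) : HasExpO O N f (epsFun O N f) := Classical.choose_spec f.2

variable {O N}

theorem epsFun_eq [FaithfulSMul O ℂ] (f : expSub O N) {a : LaurentSeries O}
    (h : HasExpO O N f a) : epsFun O N f = a :=
  (epsFun_spec O N f).unique h

variable (O N)

/-- the expansion map on `expSub`. -/
def epsExp [FaithfulSMul O ℂ] : expSub O N →ₐ[O] LaurentSeries O where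
  toFun := epsFun O N
  map_one' := by
    apply epsFun_eq
    unfold HasExpO
    rw [map_one]
    exact hasExp_const (N := N) 1
  map_mul' f g := by
    apply epsFun_eq
    have hf := epsFun_spec O N f
    have hg := epsFun_spec O N g
    unfold HasExpO at *
    rw [map_mul]
    exact hf.mul hg
  map_zero' := by
    apply epsFun_eq
    unfold HasExpO
    rw [map_zero]
    have := hasExp_const (N := N) 0
    rwa [map_zero] at this
  map_add' f g := by
    apply epsFun_eq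
    have hf := epsFun_spec O N f
    have hg := epsFun_spec O N g
    unfold HasExpO at *
    rw [map_add]
    exact hf.add hg
  commutes' r := by
    apply epsFun_eq
    unfold HasExpO
    rw [algebraMap_laurent_eq_C_eps, coeffMap_C']
    exact hasExp_const _

end eps

/-! ### expansions of the generators -/

section good

variable {O : Type} [CommRing O] [Algebra O ℂ] {N : ℕ} [NeZero N]

theorem algebraMap_units_inv' (u : Oˣ) :
    algebraMap O ℂ ((u⁻¹ : Oˣ) : O) = (algebraMap O ℂ (u : O))⁻¹ := by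
  apply eq_inv_of_mul_eq_one_left
  rw [← map_mul, Units.inv_mul, map_one]

omit [NeZero N] in
theorem GoodCoeff.exists_const (h : GoodCoeff N O) {α δ : ℕ} (hαδ : α * δ ∣ N) :
    ∃ c : Oˣ, algebraMap O ℂ (c : O) = ((α : ℂ) * δ) ^ 11 * ((δ : ℂ) ^ 12)⁻¹ := by
  obtain ⟨u, hu⟩ := h.isUnit_natCast α (dvd_trans (dvd_mul_right α δ) hαδ)
  obtain ⟨v, hv⟩ := h.isUnit_natCast δ (dvd_trans (dvd_mul_left δ α) hαδ)
  refine ⟨(u * v) ^ 11 * (v ^ 12)⁻¹, ?_⟩
  rw [Units.val_mul, map_mul, algebraMap_units_inv']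
  simp only [Units.val_pow_eq_pow_val, Units.val_mul, hu, hv, map_pow, map_mul, map_natCast]

theorem neZero_div_mul {α δ : ℕ} (hα : 0 < α) (hδN : δ ∣ N) : NeZero (N / δ * α) :=
  ⟨(Nat.mul_pos (Nat.div_pos (Nat.le_of_dvd (Nat.pos_of_ne_zero (NeZero.ne N)) hδN)
    (Nat.pos_of_dvd_of_pos hδN (Nat.pos_of_ne_zero (NeZero.ne N)))) hα).ne'⟩

/-- all three expansions for `M = γ * (α β; 0 δ)`. -/
theorem GoodCoeff.exists_exp_ut (h : GoodCoeff N O) {α δ : ℕ} (β : ℤ) (hα : 0 < α) (hδ : 0 < δ)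
    (hαδ : α * δ ∣ N) [NeZero (N / δ * α)] (γ : SL(2, ℤ)) :
    ∃ ξ c : Oˣ,
      HasExpO O N (jM ((γ : GL (Fin 2) ℝ) * utGL α δ β hα hδ)) (jSer O (N / δ * α) ξ) ∧
      HasExpO O N (uM ((γ : GL (Fin 2) ℝ) * utGL α δ β hα hδ)) (uSer O N (N / δ * α) ξ c) ∧
      HasExpO O N (uM ((γ : GL (Fin 2) ℝ) * utGL α δ β hα hδ))⁻¹
        (uInvSer O N (N / δ * α) ξ ((c⁻¹ : Oˣ) : O)) := by
  have hδN : δ ∣ N := dvd_trans (dvd_mul_left δ α) hαδ
  obtain ⟨ξ, hξ⟩ := h.exists_root δ β hδN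
  obtain ⟨c, hc⟩ := h.exists_const hαδ
  refine ⟨ξ, c, ?_, ?_, ?_⟩
  · rw [jM_SL_mul]
    exact hasExpO_jM_utGL β hα hδ hδN ξ hξ
  · rw [uM_SL_mul]
    exact hasExpO_uM_utGL β hα hδ hδN ξ hξ c hc
  · rw [uM_SL_mul]
    exact hasExpO_inv_uM_utGL β hα hδ hδN ξ hξ _ (by rw [algebraMap_units_inv', hc])

theorem GoodCoeff.Bsub_le (h : GoodCoeff N O) : Bsub O N ≤ expSub O N := by
  apply Algebra.adjoin_le
  rintro f ⟨M, hM, hf⟩
  obtain ⟨γ, α, δ, β, hα, hδ, hαδ, rfl⟩ := exists_hnf hM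
  have : NeZero (N / δ * α) := neZero_div_mul hα (dvd_trans (dvd_mul_left δ α) hαδ)
  obtain ⟨ξ, c, h1, h2, h3⟩ := h.exists_exp_ut β hα hδ hαδ γ
  rcases hf with rfl | rfl | rfl
  · exact ⟨_, h1⟩
  · exact ⟨_, h2⟩
  · exact ⟨_, h3⟩

variable [FaithfulSMul O ℂ]

/-- the expansion map on the ring of modular functions. -/
def epsB (h : GoodCoeff N O) : Bsub O N →ₐ[O] LaurentSeries O :=
  (epsExp O N).comp (Subalgebra.inclusion h.Bsub_le)

theorem epsB_spec (h : GoodCoeff N O) (b : Bsub O N) : HasExpO O N b (epsB h b) :=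
  epsFun_spec O N (Subalgebra.inclusion h.Bsub_le b)

theorem epsB_eq (h : GoodCoeff N O) (b : Bsub O N) {a : LaurentSeries O}
    (hb : HasExpO O N b a) : epsB h b = a :=
  (epsB_spec h b).unique hb

theorem epsB_injective (h : GoodCoeff N O) : Function.Injective (epsB h) := by
  intro a b hab
  apply Subtype.ext
  have h1 := epsB_spec h a
  rw [hab] at h1
  exact h1.fun_unique (epsB_spec h b)

end good

/-! ### the translates of `j(dτ)` and `Δ(dτ)/Δ(τ)` -/

theorem div_mul_arith {N α δ d : ℕ} (hδ : 0 < δ) (hα : 0 < α) (h : α * δ = d) (hdN : d ∣ N) :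
    N / δ * α = N / d * α ^ 2 := by
  obtain ⟨k, rfl⟩ := hdN
  subst h
  rw [Nat.mul_div_cancel_left k (by positivity)]
  have : α * δ * k = δ * (α * k) := by ring
  rw [this, Nat.mul_div_cancel_left _ hδ]
  ring

theorem jM_utGL_one_eq {d : ℕ} (hd : 0 < d) (β : ℤ) :
    jM (utGL d 1 β hd one_pos) = jM (utGL d 1 0 hd one_pos) := by
  have : NeZero (1 / 1 * d) := ⟨by simpa using hd.ne'⟩
  rw [jM_utGL, jM_utGL]
  have h1 := hasExp_jFun.comp_utMap (N := 1) β hd one_pos (one_dvd 1) 1 (by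
    have := Complex.exp_int_mul_two_pi_mul_I β
    rw [Units.val_one, ← this]
    congr 1
    push_cast
    ring)
  have h2 := hasExp_jFun.comp_utMap (N := 1) 0 hd one_pos (one_dvd 1) 1 (by simp)
  exact h1.fun_unique h2

section key

variable {O : Type} [CommRing O] [Algebra O ℂ] {N : ℕ} [NeZero N]

theorem GoodCoeff.key (h : GoodCoeff N O) {d : ℕ} (hd : 0 < d) (hdN : d ∣ N) (γ : SL(2, ℤ)) :
    ∃ (e : ℕ) (_ : NeZero e) (ξ c : Oˣ),
      e = N / d * (Nat.gcd (γ 1 0).natAbs d) ^ 2 ∧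
      HasExpO O N (jM (utGL d 1 0 hd one_pos * (γ : GL (Fin 2) ℝ))) (jSer O e ξ) ∧
      HasExpO O N (uM (utGL d 1 0 hd one_pos * (γ : GL (Fin 2) ℝ))) (uSer O N e ξ c) ∧
      (Nat.gcd (γ 1 0).natAbs d = d →
        jM (utGL d 1 0 hd one_pos * (γ : GL (Fin 2) ℝ)) = jM (utGL d 1 0 hd one_pos)) := by
  obtain ⟨γ', δ, β, hα, hδ, hαδ, heq⟩ := exists_hnf_diag hd γ
  generalize Nat.gcd (γ 1 0).natAbs d = α at *
  have hαδN : α * δ ∣ N := hαδ ▸ hdN
  have : NeZero (N / δ * α) := neZero_div_mul hα (dvd_trans (dvd_mul_left δ α) hαδN)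
  obtain ⟨ξ, c, h1, h2, -⟩ := h.exists_exp_ut β hα hδ hαδN γ'
  refine ⟨N / δ * α, this, ξ, c, div_mul_arith hδ hα hαδ hdN, ?_, ?_, ?_⟩
  · rw [heq]; exact h1
  · rw [heq]; exact h2
  · intro hαd
    subst hαd
    have hδ1 : δ = 1 := by
      have : α * δ = α * 1 := by rw [hαδ, mul_one]
      exact Nat.eq_of_mul_eq_mul_left hα this
    subst hδ1
    rw [heq, jM_SL_mul, jM_utGL_one_eq]

end key

end Fermat.Agent.S28.DG
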