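import Fermat.Agent.S28.DG.Analytic.Matrices
import Fermat.Agent.S28.DG.Analytic.Invariants
import Fermat.Agent.S28.DG.Analytic.Twist

/-!
# S28, Part A (WP18), step 1: explicit expansions of the generators `jM`, `uM`, `(uM)⁻¹`
for upper triangular matrices, with coefficients in a ring `O → ℂ`, and their orders.
-/

set_option autoImplicit false
open ModularCurve UpperHalfPlane Complex
open scoped ModularForm MatrixGroups Real Manifold
noncomputable section

namespace Fermat.Agent.S28.DG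

/-! ### order and unit leading coefficient -/

/-- `a` has order `n` and a unit leading coefficient. -/
def OrdUnit {O : Type} [CommRing O] (a : LaurentSeries O) (n : ℤ) : Prop :=
  a.order = n ∧ IsUnit a.leadingCoeff

theorem OrdUnit.mul {O : Type} [CommRing O] [IsDomain O] {a b : LaurentSeries O} {m n : ℤ}
    (ha : OrdUnit a m) (hb : OrdUnit b n) : OrdUnit (a * b) (m + n) := by
  have h : a.leadingCoeff * b.leadingCoeff ≠ 0 := mul_ne_zero ha.2.ne_zero hb.2.ne_zero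
  refine ⟨?_, ?_⟩
  · rw [HahnSeries.order_mul_of_ne_zero h, ha.1, hb.1]
  · rw [HahnSeries.leadingCoeff_mul_of_ne_zero h]
    exact ha.2.mul hb.2

theorem ordUnit_C {O : Type} [CommRing O] {c : O} (hc : IsUnit c) :
    OrdUnit (HahnSeries.C c : LaurentSeries O) 0 := by
  refine ⟨HahnSeries.order_C, ?_⟩
  have : (HahnSeries.C c : LaurentSeries O) = HahnSeries.single 0 c := rfl
  rw [this, HahnSeries.leadingCoeff_of_single]
  exact hc

theorem OrdUnit.twist {O : Type} [CommRing O] {a : LaurentSeries O} {n : ℤ} (ha : OrdUnit a n)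
    (ξ : Oˣ) : OrdUnit (twist ξ a) n := by
  obtain ⟨h1, h2⟩ := order_twist ξ a
  refine ⟨h1.trans ha.1, ?_⟩
  rw [h2]
  exact (Units.isUnit _).mul ha.2

theorem OrdUnit.qExpand {O : Type} [CommRing O] {a : LaurentSeries O} {n : ℤ} (ha : OrdUnit a n)
    (e : ℕ) [NeZero e] : OrdUnit (qExpand O e a) (e * n) := by
  obtain ⟨h1, h2⟩ := order_qExpand e a
  refine ⟨by rw [h1, ha.1], ?_⟩
  rw [h2]
  exact ha.2

theorem ordUnit_DeltaS (O : Type) [CommRing O] [Nontrivial O] : OrdUnit (DeltaS O) 1 :=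
  ⟨(order_DeltaS O).1, by rw [(order_DeltaS O).2]; exact isUnit_one⟩

theorem ordUnit_DeltaInvS (O : Type) [CommRing O] [Nontrivial O] : OrdUnit (DeltaInvS O) (-1) :=
  ⟨(order_DeltaInvS O).1, by rw [(order_DeltaInvS O).2]; exact isUnit_one⟩

theorem ordUnit_jqModC (O : Type) [CommRing O] [Nontrivial O] : OrdUnit (jqModC O) (-1) :=
  ⟨(order_jqModC O).1, by rw [(order_jqModC O).2]; exact isUnit_one⟩

/-! ### change of level -/

theorem utMap_one_one_zero (τ : ℍ) : utMap 1 1 0 one_pos one_pos τ = τ := by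
  apply UpperHalfPlane.ext
  simp [utMap]

theorem HasExp.level {N : ℕ} [NeZero N] {f : ℍ → ℂ} {a : LaurentSeries ℂ} (h : HasExp 1 f a) :
    HasExp N f (qExpand ℂ N a) := by
  have : NeZero (N / 1 * 1) := ⟨by simpa using NeZero.ne N⟩
  have h1 := HasExp.comp_utMap (N := N) (α := 1) (δ := 1) 0 one_pos one_pos (one_dvd N) h 1
    (by simp)
  have h2 : f ∘ utMap 1 1 0 one_pos one_pos = f := by
    funext τ
    simp [utMap_one_one_zero]
  rw [h2, twist_one, qExpand_congr (show N / 1 * 1 = N by simp)] at h1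
  exact h1

/-! ### the three families of generators -/

section gens

variable (O : Type) [CommRing O] [Algebra O ℂ]

/-- formal expansion of `j((ατ+β)/δ)` in `q_N`, where `e = N/δ*α`. -/
def jSer (e : ℕ) [NeZero e] (ξ : Oˣ) : LaurentSeries O := qExpand O e (twist ξ (jqModC O))

/-- formal expansion of `c Δ((ατ+β)/δ)/Δ(τ)` in `q_N`, where `e = N/δ*α`. -/
def uSer (N e : ℕ) [NeZero N] [NeZero e] (ξ : Oˣ) (c : O) : LaurentSeries O :=
  HahnSeries.C c * qExpand O e (twist ξ (DeltaS O)) * qExpand O N (DeltaInvS O)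

/-- formal expansion of `c Δ(τ)/Δ((ατ+β)/δ)` in `q_N`, where `e = N/δ*α`. -/
def uInvSer (N e : ℕ) [NeZero N] [NeZero e] (ξ : Oˣ) (c : O) : LaurentSeries O :=
  HahnSeries.C c * qExpand O e (twist ξ (DeltaInvS O)) * qExpand O N (DeltaS O)

variable {O}

theorem coeffMap_C' {R S : Type*} [CommRing R] [CommRing S] (f : R →+* S) (c : R) :
    coeffMap f (HahnSeries.C c : LaurentSeries R) = HahnSeries.C (f c) :=
  coeffMap_single f 0 c

theorem hasExpO_jM_utGL {N α δ : ℕ} [NeZero N] (β : ℤ) (hα : 0 < α) (hδ : 0 < δ) (hδN : δ ∣ N)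
    [NeZero (N / δ * α)] (ξ : Oˣ)
    (hξ : algebraMap O ℂ (ξ : O) = Complex.exp (2 * π * Complex.I * β / δ)) :
    HasExpO O N (jM (utGL α δ β hα hδ)) (jSer O (N / δ * α) ξ) := by
  unfold HasExpO jSer
  rw [coeffMap_qExpand, coeffMap_twist, coeffMap_jqModC, jM_utGL]
  exact hasExp_jFun.comp_utMap β hα hδ hδN _ hξ

theorem hasExpO_uM_utGL {N α δ : ℕ} [NeZero N] (β : ℤ) (hα : 0 < α) (hδ : 0 < δ) (hδN : δ ∣ N)
    [NeZero (N / δ * α)] (ξ : Oˣ)
    (hξ : algebraMap O ℂ (ξ : O) = Complex.exp (2 * π * Complex.I * β / δ)) (c : O)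
    (hc : algebraMap O ℂ c = ((α : ℂ) * δ) ^ 11 * ((δ : ℂ) ^ 12)⁻¹) :
    HasExpO O N (uM (utGL α δ β hα hδ)) (uSer O N (N / δ * α) ξ c) := by
  unfold HasExpO uSer
  rw [map_mul, map_mul, coeffMap_C', coeffMap_qExpand, coeffMap_qExpand, coeffMap_twist,
    coeffMap_DeltaS, coeffMap_DeltaInvS, hc]
  have h1 := hasExp_discriminant.comp_utMap (N := N) β hα hδ hδN
    (Units.map (algebraMap O ℂ : O →* ℂ) ξ) hξ
  have h2 := (hasExp_inv_discriminant.level (N := N))
  have h3 := ((hasExp_const (N := N) (((α : ℂ) * δ) ^ 11 * ((δ : ℂ) ^ 12)⁻¹)).mul h1).mul h2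
  convert h3 using 1
  funext τ
  rw [uM_utGL]
  rfl

theorem hasExpO_inv_uM_utGL {N α δ : ℕ} [NeZero N] (β : ℤ) (hα : 0 < α) (hδ : 0 < δ)
    (hδN : δ ∣ N) [NeZero (N / δ * α)] (ξ : Oˣ)
    (hξ : algebraMap O ℂ (ξ : O) = Complex.exp (2 * π * Complex.I * β / δ)) (c : O)
    (hc : algebraMap O ℂ c = (((α : ℂ) * δ) ^ 11 * ((δ : ℂ) ^ 12)⁻¹)⁻¹) :
    HasExpO O N (uM (utGL α δ β hα hδ))⁻¹ (uInvSer O N (N / δ * α) ξ c) := by
  unfold HasExpO uInvSer
  rw [map_mul, map_mul, coeffMap_C', coeffMap_qExpand, coeffMap_qExpand, coeffMap_twist,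
    coeffMap_DeltaS, coeffMap_DeltaInvS, hc]
  have h1 := hasExp_inv_discriminant.comp_utMap (N := N) β hα hδ hδN
    (Units.map (algebraMap O ℂ : O →* ℂ) ξ) hξ
  have h2 := (hasExp_discriminant.level (N := N))
  have h3 := ((hasExp_const (N := N) (((α : ℂ) * δ) ^ 11 * ((δ : ℂ) ^ 12)⁻¹)⁻¹).mul h1).mul h2
  convert h3 using 1
  funext τ
  rw [Pi.inv_apply, uM_utGL]
  simp only [Pi.mul_apply, Function.comp_apply, mul_inv, inv_inv]

omit [Algebra O ℂ] in
theorem ordUnit_jSer [IsDomain O] (e : ℕ) [NeZero e] (ξ : Oˣ) : OrdUnit (jSer O e ξ) (-(e : ℤ)) := by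
  have := ((ordUnit_jqModC O).twist ξ).qExpand e
  rwa [mul_neg, mul_one] at this

omit [Algebra O ℂ] in
theorem ordUnit_uSer [IsDomain O] (N e : ℕ) [NeZero N] [NeZero e] (ξ : Oˣ) {c : O}
    (hc : IsUnit c) : OrdUnit (uSer O N e ξ c) ((e : ℤ) - N) := by
  have := ((ordUnit_C hc).mul (((ordUnit_DeltaS O).twist ξ).qExpand e)).mul
    ((ordUnit_DeltaInvS O).qExpand N)
  have h : (0 : ℤ) + (e : ℤ) * 1 + (N : ℤ) * (-1) = (e : ℤ) - N := by ring
  rwa [h] at this

end gens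

end Fermat.Agent.S28.DG
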