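import Fermat.Agent.S28.DG.Analytic.Main.Exp

/-!
# S28, Part A (WP18), step 2: the ring of modular functions, the action of `SL₂(ℤ)`, the expansion map
-/

set_option autoImplicit false
open ModularCurve UpperHalfPlane Complex
open scoped ModularForm MatrixGroups Real Manifold
noncomputable section

namespace Fermat.Agent.S28.DG

/-- The hypotheses on the coefficient ring: it contains the `N`-th roots of unity and `1/N`. -/
structure GoodCoeff (N : ℕ) (O : Type) [CommRing O] [Algebra O ℂ] : Prop where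
  exists_root : ∀ (δ : ℕ) (β : ℤ), δ ∣ N →
    ∃ ξ : Oˣ, algebraMap O ℂ (ξ : O) = Complex.exp (2 * π * Complex.I * β / δ)
  isUnit_natCast : ∀ n : ℕ, n ∣ N → IsUnit (n : O)

section ring

variable (O : Type) [CommRing O] [Algebra O ℂ] (N : ℕ)

/-- generators of the ring of modular functions. -/
def gens : Set (ℍ → ℂ) := {f | ∃ M ∈ intMat N, f = jM M ∨ f = uM M ∨ f = (uM M)⁻¹}

/-- the ring of modular functions. -/
def Bsub : Subalgebra O (ℍ → ℂ) := Algebra.adjoin O (gens N)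

/-- `f ↦ f ∘ γ⁻¹`. -/
def preAct (γ : SL(2, ℤ)) : (ℍ → ℂ) →ₐ[O] (ℍ → ℂ) where
  toFun f τ := f (γ⁻¹ • τ)
  map_one' := rfl
  map_mul' _ _ := rfl
  map_zero' := rfl
  map_add' _ _ := rfl
  commutes' _ := rfl

@[simp] theorem preAct_apply (γ : SL(2, ℤ)) (f : ℍ → ℂ) (τ : ℍ) :
    preAct O γ f τ = f (γ⁻¹ • τ) := rfl

theorem preAct_jM (γ : SL(2, ℤ)) (M : GL (Fin 2) ℝ) :
    preAct O γ (jM M) = jM (M * ((γ⁻¹ : SL(2, ℤ)) : GL (Fin 2) ℝ)) := by
  funext τ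
  rw [preAct_apply, jM_smul]

theorem preAct_uM (γ : SL(2, ℤ)) (M : GL (Fin 2) ℝ) :
    preAct O γ (uM M) = uM (M * ((γ⁻¹ : SL(2, ℤ)) : GL (Fin 2) ℝ)) := by
  funext τ
  rw [preAct_apply, uM_smul]

theorem preAct_inv_uM (γ : SL(2, ℤ)) (M : GL (Fin 2) ℝ) :
    preAct O γ (uM M)⁻¹ = (uM (M * ((γ⁻¹ : SL(2, ℤ)) : GL (Fin 2) ℝ)))⁻¹ := by
  funext τ
  rw [preAct_apply, Pi.inv_apply, Pi.inv_apply, uM_smul]

variable {N}

theorem preAct_mem_gens {f : ℍ → ℂ} (hf : f ∈ gens N) (γ : SL(2, ℤ)) : preAct O γ f ∈ gens N := by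
  obtain ⟨M, hM, rfl | rfl | rfl⟩ := hf
  · exact ⟨_, mul_SL_mem_intMat hM γ⁻¹, Or.inl (preAct_jM O γ M)⟩
  · exact ⟨_, mul_SL_mem_intMat hM γ⁻¹, Or.inr (Or.inl (preAct_uM O γ M))⟩
  · exact ⟨_, mul_SL_mem_intMat hM γ⁻¹, Or.inr (Or.inr (preAct_inv_uM O γ M))⟩

theorem preAct_mem {f : ℍ → ℂ} (hf : f ∈ Bsub O N) (γ : SL(2, ℤ)) : preAct O γ f ∈ Bsub O N := by
  have h : (Bsub O N).map (preAct O γ) ≤ Bsub O N := by
    unfold Bsub
    rw [AlgHom.map_adjoin]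
    apply Algebra.adjoin_mono
    rintro _ ⟨g, hg, rfl⟩
    exact preAct_mem_gens O hg γ
  exact h ⟨f, hf, rfl⟩

theorem preAct_eq_of_mem_Gamma [NeZero N] {f : ℍ → ℂ} (hf : f ∈ Bsub O N) {γ : SL(2, ℤ)}
    (hγ : γ ∈ CongruenceSubgroup.Gamma N) : preAct O γ f = f := by
  have h : Bsub O N ≤ AlgHom.equalizer (preAct O γ) (AlgHom.id O (ℍ → ℂ)) := by
    apply Algebra.adjoin_le
    rintro g ⟨M, hM, hg⟩
    obtain ⟨γ', hγ'⟩ := exists_SL_mul_eq_mul_Gamma hM γ⁻¹ (inv_mem hγ)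
    change preAct O γ g = g
    rcases hg with rfl | rfl | rfl
    · rw [preAct_jM, hγ', jM_SL_mul]
    · rw [preAct_uM, hγ', uM_SL_mul]
    · rw [preAct_inv_uM, hγ', uM_SL_mul]
  exact h hf

variable (N)

/-- the action of `SL₂(ℤ)` on the ring of modular functions. -/
@[reducible] def slAct : MulSemiringAction SL(2, ℤ) (Bsub O N) where
  smul γ b := ⟨preAct O γ b, preAct_mem O b.2 γ⟩
  one_smul b := Subtype.ext (funext fun τ => by
    change (b : ℍ → ℂ) ((1 : SL(2, ℤ))⁻¹ • τ) = (b : ℍ → ℂ) τ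
    rw [inv_one, one_smul])
  mul_smul γ₁ γ₂ b := Subtype.ext (funext fun τ => by
    change (b : ℍ → ℂ) ((γ₁ * γ₂)⁻¹ • τ) = (b : ℍ → ℂ) (γ₂⁻¹ • γ₁⁻¹ • τ)
    rw [mul_inv_rev, mul_smul])
  smul_zero γ := Subtype.ext (map_zero (preAct O γ))
  smul_add γ a b := Subtype.ext (map_add (preAct O γ) (a : ℍ → ℂ) (b : ℍ → ℂ))
  smul_one γ := Subtype.ext (map_one (preAct O γ))
  smul_mul γ a b := Subtype.ext (map_mul (preAct O γ) (a : ℍ → ℂ) (b : ℍ → ℂ))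

instance gammaNormalInst : (CongruenceSubgroup.Gamma N).Normal := CongruenceSubgroup.Gamma_normal N

/-- the group `SL₂(ℤ)/Γ(N)`. -/
abbrev Gq : Type := SL(2, ℤ) ⧸ CongruenceSubgroup.Gamma N

/-- the homomorphism `SL₂(ℤ)/Γ(N) → Aut(B)`. -/
def gqHom [NeZero N] : Gq N →* RingAut (Bsub O N) :=
  QuotientGroup.lift (CongruenceSubgroup.Gamma N)
    (@MulSemiringAction.toRingAut SL(2, ℤ) (Bsub O N) _ _ (slAct O N)) (by
      intro γ hγ
      ext b : 1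
      exact Subtype.ext (preAct_eq_of_mem_Gamma O b.2 hγ))

/-- the action of `SL₂(ℤ)/Γ(N)` on the ring of modular functions. -/
@[reducible] def gqAct [NeZero N] : MulSemiringAction (Gq N) (Bsub O N) :=
  MulSemiringAction.compHom (Bsub O N) (gqHom O N)

theorem gqAct_mk_coe [NeZero N] (γ : SL(2, ℤ)) (b : Bsub O N) :
    (((gqAct O N).toSMul.smul (QuotientGroup.mk γ : Gq N) b : Bsub O N) : ℍ → ℂ) =
      preAct O γ b := rfl

end ring

end Fermat.Agent.S28.DG
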